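import Fermat.Agent.Ribet.H785.PeuWall

/-!
# RIBET row 38, WALL-p, leaf INST-F (helper785), part (b): the Kummer generator of a class

Setting of the crux (S4) (`H944.Wall.S4For`): `A ∣ p` a place of `ℚ̄`, `I` its inertia group,
`I₁ ⊆ I` the subgroup acting trivially on `μ_p` (so `K₁ = ℚ̄^{I₁}`), `x, t` two classes with
`σ t = χ(σ) t`, `σ x = x + n(σ) t` for `σ ∈ I`, `p t = 0`, and `x` fixed by the peu ramifiée
subgroup.  Then the field of definition `E' = K₁(x)` of `x` over `K₁` is `K₁(u)` for a UNIT `u`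
of `A` with `u ^ p ∈ K₁`, and `σ u = ζ ^ n(σ) u` for `σ ∈ I₁` (`ζ` any primitive `p`-th root of
unity): `exists_kummer_unit`.  Since `u` is a unit, `c := u ^ p` has `v(c) = 0`, in particular
`p ∣ v(c)`: this is the hypothesis `hpeu` of `I6.sheet_shift` and `u` is the element `u` of
`I6.PeriodStatement` (with `ζ⁻¹` in place of `ζ`).

Proof: Lagrange resolvents of an element `θ` of the field of definition which is moved by a
generator `σ₁` (`σ₁ x = x + t`) give `u₀ ≠ 0` with `σ u₀ = ζ ^ n(σ) u₀`; `u₀` is fixed by the peu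
ramifiée subgroup, so `u₀ = z · y` with `z ∈ K₁` and `y` a unit by `peu_kummer` (`PeuCore.lean`).
-/

set_option autoImplicit false
set_option linter.style.haveILetI false

namespace Fermat.Agent.Ribet.H785

section Resolvent

variable {K L : Type*} [Field K] [Field L] [Algebra K L]

/-- The Lagrange resolvent `∑_{i<p} w ^ i · σ ^ i θ`. -/
noncomputable def resolventSum (p : ℕ) (σ : L ≃ₐ[K] L) (w θ : L) : L :=
  ∑ i ∈ Finset.range p, w ^ i * (σ ^ i) θ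

/-- `w · σ R = R` for the resolvent `R` of `θ` w.r.t. the `p`-th root of unity `w`. -/
theorem mul_apply_resolventSum (p : ℕ) (σ : L ≃ₐ[K] L) {w θ : L} (hw : w ^ p = 1)
    (hσw : σ w = w) (hθ : (σ ^ p) θ = θ) :
    w * σ (resolventSum p σ w θ) = resolventSum p σ w θ := by
  unfold resolventSum
  rw [map_sum, Finset.mul_sum]
  have h1 : ∀ i ∈ Finset.range p,
      w * σ (w ^ i * (σ ^ i) θ) = w ^ (i + 1) * (σ ^ (i + 1)) θ := by
    intro i _
    rw [map_mul, map_pow, hσw, pow_succ' σ i, AlgEquiv.mul_apply, ← mul_assoc, ← pow_succ']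
  rw [Finset.sum_congr rfl h1]
  have h2 := Finset.sum_range_succ' (fun i => w ^ i * (σ ^ i) θ) p
  have h3 := Finset.sum_range_succ (fun i => w ^ i * (σ ^ i) θ) p
  rw [h2] at h3
  simp only [pow_zero, one_mul, hw, hθ, AlgEquiv.one_apply] at h3
  exact add_right_cancel h3

/-- The resolvent is fixed by every automorphism fixing `w` and the conjugates `σ ^ i θ`. -/
theorem apply_resolventSum_eq (p : ℕ) (σ ν : L ≃ₐ[K] L) {w θ : L} (hνw : ν w = w)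
    (hν : ∀ i : ℕ, ν ((σ ^ i) θ) = (σ ^ i) θ) :
    ν (resolventSum p σ w θ) = resolventSum p σ w θ := by
  unfold resolventSum
  rw [map_sum]
  refine Finset.sum_congr rfl fun i _ => ?_
  rw [map_mul, map_pow, hνw, hν i]

/-- The resolvents of `θ` w.r.t. all `p`-th roots of unity add up to `p · θ`. -/
theorem sum_resolventSum {p : ℕ} (hp : p.Prime) {ζ : L} (hζ : IsPrimitiveRoot ζ p)
    (σ : L ≃ₐ[K] L) (θ : L) :
    ∑ j ∈ Finset.range p, resolventSum p σ (ζ ^ j) θ = p * θ := by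
  unfold resolventSum
  rw [Finset.sum_comm]
  have h1 : ∀ i ∈ Finset.range p, ∑ j ∈ Finset.range p, (ζ ^ j) ^ i * (σ ^ i) θ
      = if i = 0 then (p : L) * θ else 0 := by
    intro i hi
    rw [← Finset.sum_mul]
    split_ifs with h0
    · subst h0
      simp
    · have hi' : i < p := Finset.mem_range.mp hi
      have hcop : i.Coprime p := (Nat.coprime_of_lt_prime h0 hi' hp).symm
      have h2 : ∑ j ∈ Finset.range p, (ζ ^ j) ^ i = ∑ j ∈ Finset.range p, (ζ ^ i) ^ j :=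
        Finset.sum_congr rfl fun j _ => by rw [← pow_mul, ← pow_mul, mul_comm]
      rw [h2, (hζ.pow_of_coprime i hcop).geom_sum_eq_zero hp.one_lt, zero_mul]
  rw [Finset.sum_congr rfl h1, Finset.sum_ite_eq' (Finset.range p) 0]
  simp [hp.pos]

/-- Some resolvent w.r.t. a NONTRIVIAL `p`-th root of unity of an element moved by `σ` does not
vanish. -/
theorem exists_resolventSum_ne_zero {p : ℕ} (hp : p.Prime) (hpL : (p : L) ≠ 0) {ζ : L}
    (hζ : IsPrimitiveRoot ζ p) (σ : L ≃ₐ[K] L) {θ : L} (hθp : (σ ^ p) θ = θ) (hθ : σ θ ≠ θ) :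
    ∃ j : ℕ, 0 < j ∧ j < p ∧ resolventSum p σ (ζ ^ j) θ ≠ 0 := by
  by_contra hcon
  push Not at hcon
  have h1 : ∀ j ∈ Finset.range p, resolventSum p σ (ζ ^ j) θ
      = if j = 0 then resolventSum p σ 1 θ else 0 := by
    intro j hj
    split_ifs with h0
    · rw [h0, pow_zero]
    · exact hcon j (Nat.pos_of_ne_zero h0) (Finset.mem_range.mp hj)
  have h2 := sum_resolventSum hp hζ σ θ
  rw [Finset.sum_congr rfl h1, Finset.sum_ite_eq' (Finset.range p) 0,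
    if_pos (Finset.mem_range.mpr hp.pos)] at h2
  have h3 := mul_apply_resolventSum p σ (w := 1) (one_pow p) (map_one σ) hθp
  rw [one_mul, h2, map_mul, map_natCast] at h3
  exact hθ (mul_left_cancel₀ hpL h3)

/-- **Lagrange resolvent.**  If `σ` fixes the primitive `p`-th root of unity `ζ` and moves `θ`,
`σ ^ p θ = θ`, there is `u ≠ 0` with `σ u = ζ u`, fixed by every automorphism fixing `ζ` and the
conjugates `σ ^ i θ`. -/
theorem exists_eigen_of_not_fixed {p : ℕ} (hp : p.Prime) (hpL : (p : L) ≠ 0) {ζ : L}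
    (hζ : IsPrimitiveRoot ζ p) (σ : L ≃ₐ[K] L) (hσζ : σ ζ = ζ) {θ : L}
    (hθp : (σ ^ p) θ = θ) (hθ : σ θ ≠ θ) :
    ∃ u : L, u ≠ 0 ∧ σ u = ζ * u ∧
      ∀ ν : L ≃ₐ[K] L, ν ζ = ζ → (∀ i : ℕ, ν ((σ ^ i) θ) = (σ ^ i) θ) → ν u = u := by
  haveI : NeZero p := ⟨hp.ne_zero⟩
  obtain ⟨j, hj0, hjp, hR⟩ := exists_resolventSum_ne_zero hp hpL hζ σ hθp hθ
  set w : L := ζ ^ j with hw
  set R : L := resolventSum p σ w θ with hRdef
  have hwp : w ^ p = 1 := by rw [hw, ← pow_mul, mul_comm, pow_mul, hζ.pow_eq_one, one_pow]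
  have hσw : σ w = w := by rw [hw, map_pow, hσζ]
  have hw0 : w ≠ 0 := pow_ne_zero _ (hζ.ne_zero hp.ne_zero)
  have hσR : σ R = w⁻¹ * R := by
    have h := mul_apply_resolventSum p σ hwp hσw hθp
    rw [eq_inv_mul_iff_mul_eq₀ hw0]
    exact h
  have hwprim : IsPrimitiveRoot w⁻¹ p :=
    (hζ.pow_of_coprime j (Nat.coprime_of_lt_prime hj0.ne' hjp hp).symm).inv
  obtain ⟨m, -, hm⟩ := hwprim.eq_pow_of_pow_eq_one hζ.pow_eq_one
  refine ⟨R ^ m, pow_ne_zero _ hR, ?_, ?_⟩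
  · rw [map_pow, hσR, mul_pow, hm]
  · intro ν hνζ hν
    rw [map_pow, apply_resolventSum_eq p σ ν (by rw [hw, map_pow, hνζ]) hν]

end Resolvent

open Fermat.Agent.Ribet.Spec Fermat.Agent.Ribet.H944.Wall Fermat.Agent.S55.Bridge
  Fermat.Agent.A2.IF

attribute [local instance] isAlgebraic_Qbar isGalois_Qbar

local notation "Qb" => AlgebraicClosure ℚ

section Closed

variable (A : ValuationSubring Qb) (p : ℕ)

/-- `I₁` is closed. -/
theorem isClosed_inertiaOne : IsClosed ((inertiaOne A p : Subgroup GQ) : Set GQ) := by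
  have h : ((inertiaOne A p : Subgroup GQ) : Set GQ)
      = ((A.inertiaSubgroupIn ℚ : Subgroup GQ) : Set GQ) ∩
        ⋂ ζ : Qb, ⋂ (_ : ζ ^ p = 1), {σ : GQ | σ ζ ∈ ({ζ ^ 1} : Set Qb)} := by
    ext σ
    simp only [SetLike.mem_coe, mem_inertiaOne_iff, Set.mem_inter_iff, Set.mem_iInter,
      Set.mem_ofPred_eq, Set.mem_singleton_iff]
  rw [h]
  exact (H9.isClosed_inertiaSubgroupIn A).inter
    (isClosed_iInter fun ζ => isClosed_iInter fun _ => H9.isClosed_setOf_apply_mem ζ _)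

/-- Galois correspondence for closed subgroups: an automorphism outside a closed subgroup `N`
moves some element of the fixed field of `N`. -/
theorem exists_fixed_not_fixed (N : Subgroup GQ) (hN : IsClosed (N : Set GQ)) {σ : GQ}
    (hσ : σ ∉ N) : ∃ θ : Qb, (∀ ν ∈ N, ν θ = θ) ∧ σ θ ≠ θ := by
  by_contra hcon
  push Not at hcon
  let H : ClosedSubgroup GQ := ⟨N, hN⟩
  have hH := InfiniteGalois.fixingSubgroup_fixedField H
  have hσ' : σ ∈ (IntermediateField.fixedField (H : Subgroup GQ)).fixingSubgroup := by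
    rw [IntermediateField.mem_fixingSubgroup_iff]
    intro θ hθ
    exact hcon θ ((IntermediateField.mem_fixedField_iff _ _).mp hθ)
  rw [hH] at hσ'
  exact hσ hσ'

end Closed

section Action

variable {A : ValuationSubring Qb} {p : ℕ} {X : Type*} [AddCommGroup X] [DistribMulAction GQ X]

/-- The stabiliser of a class defined over a number field is closed. -/
theorem isClosed_stabilizer (x : X)
    (hopen : ∃ K : IntermediateField ℚ Qb, FiniteDimensional ℚ K ∧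
      ∀ σ : GQ, (∀ a ∈ K, σ a = a) → σ • x = x) :
    IsClosed ((MulAction.stabilizer GQ x : Subgroup GQ) : Set GQ) := by
  obtain ⟨K, hK, hKx⟩ := hopen
  apply Subgroup.isClosed_of_isOpen
  refine Subgroup.isOpen_mono (H₁ := K.fixingSubgroup) ?_ K.fixingSubgroup_isOpen
  intro σ hσ
  rw [MulAction.mem_stabilizer_iff]
  exact hKx σ ((IntermediateField.mem_fixingSubgroup_iff K σ).mp hσ)

/-- `N = I₁ ∩ Stab(x)` is closed. -/
theorem isClosed_inertiaOne_inf_stabilizer (A : ValuationSubring Qb) (p : ℕ) (x : X)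
    (hopen : ∃ K : IntermediateField ℚ Qb, FiniteDimensional ℚ K ∧
      ∀ σ : GQ, (∀ a ∈ K, σ a = a) → σ • x = x) :
    IsClosed ((inertiaOne A p ⊓ MulAction.stabilizer GQ x : Subgroup GQ) : Set GQ) := by
  rw [Subgroup.coe_inf]
  exact (isClosed_inertiaOne A p).inter (isClosed_stabilizer x hopen)

/-- `I₁` fixes `t`. -/
theorem smul_eq_of_mem_inertiaOne {t : X}
    (ht : ∀ σ ∈ A.inertiaSubgroupIn ℚ, ∀ c : ℕ, CycloAt p σ c → σ • t = c • t)
    {σ : GQ} (hσ : σ ∈ inertiaOne A p) : σ • t = t := by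
  rw [ht σ hσ.1 1 hσ.2, one_nsmul]

/-- `σ x = x + s`, `σ s = s`  ⟹  `σ ^ i x = x + i s`. -/
theorem pow_smul_eq_add_nsmul {x s : X} {σ : GQ} (hx : σ • x = x + s) (hs : σ • s = s)
    (i : ℕ) : (σ ^ i) • x = x + i • s := by
  have hs' : ∀ j : ℕ, (σ ^ j) • s = s := by
    intro j
    induction j with
    | zero => rw [pow_zero, one_smul]
    | succ j ih => rw [pow_succ, mul_smul, hs, ih]
  induction i with
  | zero => rw [pow_zero, one_smul, zero_nsmul, add_zero]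
  | succ i ih => rw [pow_succ, mul_smul, hx, smul_add, ih, hs', succ_nsmul, add_assoc]

/-- `σ u = ζ u`, `σ ζ = ζ`  ⟹  `σ ^ i u = ζ ^ i u`. -/
theorem pow_apply_eq_pow_mul {u ζ : Qb} {σ : GQ} (hu : σ u = ζ * u) (hζ : σ ζ = ζ) (i : ℕ) :
    (σ ^ i) u = ζ ^ i * u := by
  induction i with
  | zero => rw [pow_zero, pow_zero, one_mul]; rfl
  | succ i ih =>
    rw [pow_succ, AlgEquiv.mul_apply, hu, map_mul, ih, ← mul_assoc, pow_succ]
    congr 1
    have : ∀ j : ℕ, (σ ^ j) ζ = ζ := by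
      intro j
      induction j with
      | zero => rw [pow_zero]; rfl
      | succ j ihj => rw [pow_succ, AlgEquiv.mul_apply, hζ, ihj]
    rw [this, mul_comm]

omit [DistribMulAction GQ X] in
/-- A nonzero `p`-torsion element has order exactly `p`. -/
theorem dvd_of_nsmul_eq_zero (hp : p.Prime) {t : X} (hpt : p • t = 0) (ht0 : t ≠ 0) {n : ℕ}
    (hn : n • t = 0) : p ∣ n := by
  have h1 : addOrderOf t ∣ p := addOrderOf_dvd_iff_nsmul_eq_zero.mpr hpt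
  have h2 : addOrderOf t ∣ n := addOrderOf_dvd_iff_nsmul_eq_zero.mpr hn
  rcases (Nat.dvd_prime hp).mp h1 with h | h
  · exact absurd (AddMonoid.addOrderOf_eq_one_iff.mp h) ht0
  · rwa [h] at h2

/-- If some element of `I₁` moves `x`, some element `σ₁` of `I₁` has `σ₁ x = x + t`. -/
theorem exists_smul_eq_add (hp : p.Prime) (x t : X)
    (ht : ∀ σ ∈ A.inertiaSubgroupIn ℚ, ∀ c : ℕ, CycloAt p σ c → σ • t = c • t)
    (hxt : ∀ σ ∈ A.inertiaSubgroupIn ℚ, ∃ n : ℕ, σ • x = x + n • t) (hpt : p • t = 0)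
    {σ₀ : GQ} (hσ₀ : σ₀ ∈ inertiaOne A p) (hσ₀x : σ₀ • x ≠ x) :
    ∃ σ₁ ∈ inertiaOne A p, σ₁ • x = x + t := by
  obtain ⟨n₀, hn₀⟩ := hxt σ₀ hσ₀.1
  have hI₁t : ∀ σ ∈ inertiaOne A p, σ • t = t :=
    fun σ hσ => smul_eq_of_mem_inertiaOne ht hσ
  have hn₀p : ¬ p ∣ n₀ := by
    rintro ⟨k, rfl⟩
    apply hσ₀x
    rw [hn₀, mul_nsmul, hpt, nsmul_zero, add_zero]
  have hcop : Nat.Coprime n₀ p := ((Nat.Prime.coprime_iff_not_dvd hp).mpr hn₀p).symm
  obtain ⟨m, -, hm⟩ := Nat.exists_mul_mod_eq_one_of_coprime hcop hp.one_lt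
  refine ⟨σ₀ ^ m, pow_mem hσ₀ m, ?_⟩
  have h1 : σ₀ • (n₀ • t) = n₀ • t := by rw [smul_comm, hI₁t σ₀ hσ₀]
  have h2 := pow_smul_eq_add_nsmul hn₀ h1 m
  rw [h2]
  congr 1
  have h3 : n₀ * m = p * (n₀ * m / p) + 1 := by
    have := Nat.div_add_mod (n₀ * m) p
    omega
  rw [← mul_nsmul, h3, add_nsmul, one_nsmul, mul_nsmul, hpt, nsmul_zero, zero_add]

/-- **Kummer generator of a class (INST-F (b)).**  In the setting of the crux (S4)
(`H944.Wall.S4For`; `t ≠ 0`): there is a unit `u` of `A` with `u ^ p ∈ K₁` such that every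
`σ ∈ I₁` with `σ x = x + n t` has `σ u = ζ ^ n u`. -/
theorem exists_kummer_unit (hp : p.Prime) (x t : X)
    (hopen : ∃ K : IntermediateField ℚ Qb, FiniteDimensional ℚ K ∧
      ∀ σ : GQ, (∀ a ∈ K, σ a = a) → σ • x = x)
    (ht : ∀ σ ∈ A.inertiaSubgroupIn ℚ, ∀ c : ℕ, CycloAt p σ c → σ • t = c • t)
    (hxt : ∀ σ ∈ A.inertiaSubgroupIn ℚ, ∃ n : ℕ, σ • x = x + n • t)
    (hpeu : ∀ σ : GQ, PeuFixes A p σ → σ • x = x) (hpt : p • t = 0) (ht0 : t ≠ 0)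
    {ζ : Qb} (hζ : IsPrimitiveRoot ζ p) :
    ∃ u : Qb, u ∈ A ∧ u⁻¹ ∈ A ∧ u ≠ 0 ∧
      (∀ τ ∈ A.inertiaSubgroupIn ℚ, CycloAt p τ 1 → τ (u ^ p) = u ^ p) ∧
      ∀ σ ∈ A.inertiaSubgroupIn ℚ, CycloAt p σ 1 →
        ∀ n : ℕ, σ • x = x + n • t → σ u = ζ ^ n * u := by
  classical
  by_cases hfix : ∀ σ ∈ inertiaOne A p, σ • x = x
  · -- tame case: `u = 1`
    refine ⟨1, A.one_mem, by rw [inv_one]; exact A.one_mem, one_ne_zero,
      fun τ _ _ => by rw [one_pow, map_one], ?_⟩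
    intro σ hσ hσ1 n hn
    have h0 : n • t = 0 := by
      have h := hfix σ ⟨hσ, hσ1⟩
      rw [h] at hn
      exact left_eq_add.mp hn
    obtain ⟨k, rfl⟩ := dvd_of_nsmul_eq_zero hp hpt ht0 h0
    rw [map_one, pow_mul, hζ.pow_eq_one, one_pow, one_mul]
  · push Not at hfix
    obtain ⟨σ₀, hσ₀, hσ₀x⟩ := hfix
    have hI₁t : ∀ σ ∈ inertiaOne A p, σ • t = t :=
      fun σ hσ => smul_eq_of_mem_inertiaOne ht hσ
    -- the generator `σ₁`, `σ₁ x = x + t`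
    obtain ⟨σ₁, hσ₁, hσ₁x⟩ := exists_smul_eq_add hp x t ht hxt hpt hσ₀ hσ₀x
    have hσ₁pow : ∀ i : ℕ, (σ₁ ^ i) • x = x + i • t :=
      pow_smul_eq_add_nsmul hσ₁x (hI₁t σ₁ hσ₁)
    -- the closed subgroup `N = I₁ ∩ Stab(x)`
    set N : Subgroup GQ := inertiaOne A p ⊓ MulAction.stabilizer GQ x with hNdef
    have hN : IsClosed (N : Set GQ) := isClosed_inertiaOne_inf_stabilizer A p x hopen
    have hmemN : ∀ ν : GQ, ν ∈ N ↔ ν ∈ inertiaOne A p ∧ ν • x = x := by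
      intro ν
      rw [hNdef, Subgroup.mem_inf, MulAction.mem_stabilizer_iff]
    have hσ₁N : σ₁ ∉ N := by
      intro h
      have h1 := ((hmemN σ₁).mp h).2
      rw [hσ₁x] at h1
      exact ht0 (add_eq_left.mp h1)
    obtain ⟨θ, hθN, hθσ₁⟩ := exists_fixed_not_fixed N hN hσ₁N
    have hσ₁p : σ₁ ^ p ∈ N :=
      (hmemN _).mpr ⟨pow_mem hσ₁ p, by rw [hσ₁pow, hpt, add_zero]⟩
    have hθp : (σ₁ ^ p) θ = θ := hθN _ hσ₁p
    have hσ₁ζ : σ₁ ζ = ζ := by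
      have := hσ₁.2 ζ hζ.pow_eq_one
      rwa [pow_one] at this
    have hpQ : ((p : ℕ) : Qb) ≠ 0 := Nat.cast_ne_zero.mpr hp.ne_zero
    obtain ⟨u₀, hu₀0, hu₀σ₁, hu₀N⟩ :=
      exists_eigen_of_not_fixed hp hpQ hζ σ₁ hσ₁ζ hθp hθσ₁
    -- `u₀` is fixed by `N`
    have hNu₀ : ∀ ν ∈ N, ν u₀ = u₀ := by
      intro ν hν
      obtain ⟨hν1, hνx⟩ := (hmemN ν).mp hν
      have hνζ : ν ζ = ζ := by
        have := hν1.2 ζ hζ.pow_eq_one
        rwa [pow_one] at this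
      refine hu₀N ν hνζ fun i => ?_
      have hconj : (σ₁ ^ i)⁻¹ * ν * σ₁ ^ i ∈ N := by
        refine (hmemN _).mpr ⟨mul_mem (mul_mem (inv_mem (pow_mem hσ₁ i)) hν1)
          (pow_mem hσ₁ i), ?_⟩
        rw [mul_smul, mul_smul, hσ₁pow i, smul_add, hνx, smul_comm ν i t, hI₁t ν hν1,
          ← hσ₁pow i, inv_smul_smul]
      have h1 := hθN _ hconj
      rw [AlgEquiv.mul_apply, AlgEquiv.mul_apply] at h1
      have h2 := congrArg (σ₁ ^ i) h1
      rwa [← AlgEquiv.mul_apply, mul_inv_cancel, AlgEquiv.one_apply] at h2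
    -- the eigen-relation for all of `I₁`
    have hkey : ∀ σ ∈ inertiaOne A p, ∀ n : ℕ, σ • x = x + n • t → σ u₀ = ζ ^ n * u₀ := by
      intro σ hσ n hn
      have hν : (σ₁ ^ n)⁻¹ * σ ∈ N := by
        refine (hmemN _).mpr ⟨mul_mem (inv_mem (pow_mem hσ₁ n)) hσ, ?_⟩
        rw [mul_smul, hn, ← hσ₁pow n, inv_smul_smul]
      have h1 := hNu₀ _ hν
      rw [AlgEquiv.mul_apply] at h1
      have h2 := congrArg (σ₁ ^ n) h1
      rw [← AlgEquiv.mul_apply, mul_inv_cancel, AlgEquiv.one_apply] at h2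
      rw [h2, pow_apply_eq_pow_mul hu₀σ₁ hσ₁ζ]
    have hu₀p : InK1 A p (u₀ ^ p) := by
      intro τ hτ hτ1
      obtain ⟨n, hn⟩ := hxt τ hτ
      rw [map_pow, hkey τ ⟨hτ, hτ1⟩ n hn, mul_pow, ← pow_mul, mul_comm n p, pow_mul,
        hζ.pow_eq_one, one_pow, one_mul]
    have hu₀peu : ∀ σ, IsPeuFixing A p σ → σ u₀ = u₀ := by
      intro σ hσ
      have hσ1 : CycloAt p σ 1 := PeuFixes_cycloAt_one hp.ne_zero hσ
      have h := hkey σ ⟨hσ.1, hσ1⟩ 0 (by rw [zero_nsmul, add_zero]; exact hpeu σ hσ)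
      rwa [pow_zero, one_mul] at h
    obtain ⟨y, z, hy, hyp, hz, hu₀zy⟩ := peu_kummer A p hu₀p hu₀peu
    have hz0 : z ≠ 0 := by
      rintro rfl
      rw [zero_mul] at hu₀zy
      exact hu₀0 hu₀zy
    obtain ⟨h1, h2, h3⟩ := valuation_eq_one_iff_mem.mp hy
    refine ⟨y, h1, h2, h3, hyp, ?_⟩
    intro σ hσ hσ1 n hn
    have h := hkey σ ⟨hσ, hσ1⟩ n hn
    rw [hu₀zy, map_mul, hz σ hσ hσ1, ← mul_assoc, mul_comm (ζ ^ n) z, mul_assoc] at h
    exact mul_left_cancel₀ hz0 h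

/-- **Kummer generator, full package.**  As `exists_kummer_unit`, together with
`K₁(x) = K₁(u)`: an element of `I₁` fixes `x` iff it fixes `u`. -/
theorem exists_kummer_gen (hp : p.Prime) (x t : X)
    (hopen : ∃ K : IntermediateField ℚ Qb, FiniteDimensional ℚ K ∧
      ∀ σ : GQ, (∀ a ∈ K, σ a = a) → σ • x = x)
    (ht : ∀ σ ∈ A.inertiaSubgroupIn ℚ, ∀ c : ℕ, CycloAt p σ c → σ • t = c • t)
    (hxt : ∀ σ ∈ A.inertiaSubgroupIn ℚ, ∃ n : ℕ, σ • x = x + n • t)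
    (hpeu : ∀ σ : GQ, PeuFixes A p σ → σ • x = x) (hpt : p • t = 0) (ht0 : t ≠ 0)
    {ζ : Qb} (hζ : IsPrimitiveRoot ζ p) :
    ∃ u : Qb, u ∈ A ∧ u⁻¹ ∈ A ∧ u ≠ 0 ∧
      (∀ τ ∈ A.inertiaSubgroupIn ℚ, CycloAt p τ 1 → τ (u ^ p) = u ^ p) ∧
      (∀ σ ∈ A.inertiaSubgroupIn ℚ, CycloAt p σ 1 →
        ∀ n : ℕ, σ • x = x + n • t → σ u = ζ ^ n * u) ∧
      (∀ σ ∈ A.inertiaSubgroupIn ℚ, CycloAt p σ 1 → (σ • x = x ↔ σ u = u)) ∧
      (∀ σ : GQ, PeuFixes A p σ → σ u = u) := by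
  obtain ⟨u, h1, h2, h3, h4, h5⟩ := exists_kummer_unit hp x t hopen ht hxt hpeu hpt ht0 hζ
  refine ⟨u, h1, h2, h3, h4, h5, ?_, ?_⟩
  · intro σ hσ hσ1
    constructor
    · intro hx
      have h := h5 σ hσ hσ1 0 (by rw [zero_nsmul, add_zero]; exact hx)
      rwa [pow_zero, one_mul] at h
    · intro hu
      obtain ⟨n, hn⟩ := hxt σ hσ
      have h := h5 σ hσ hσ1 n hn
      rw [hu] at h
      have h6 : ζ ^ n = 1 := by
        have h7 : 1 * u = ζ ^ n * u := by rw [one_mul]; exact h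
        exact (mul_right_cancel₀ h3 h7).symm
      obtain ⟨k, rfl⟩ := (hζ.pow_eq_one_iff_dvd n).mp h6
      rw [hn, mul_nsmul, hpt, nsmul_zero, add_zero]
  · intro σ hσ
    have h := h5 σ hσ.1 (PeuFixes_cycloAt_one hp.ne_zero hσ) 0
      (by rw [zero_nsmul, add_zero]; exact hpeu σ hσ)
    rwa [pow_zero, one_mul] at h

/-- **Kummer generator with a generator of the Galois group.**  If `x` is NOT defined over
`K₁`, there are `σ₁ ∈ I₁` and a unit `u` of `A` with `u ^ p ∈ K₁`, `σ₁ x = x + t`, `σ₁ u = ζ u`,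
`K₁(x) = K₁(u)`. -/
theorem exists_kummer_gen_of_not_fixed (hp : p.Prime) (x t : X)
    (hopen : ∃ K : IntermediateField ℚ Qb, FiniteDimensional ℚ K ∧
      ∀ σ : GQ, (∀ a ∈ K, σ a = a) → σ • x = x)
    (ht : ∀ σ ∈ A.inertiaSubgroupIn ℚ, ∀ c : ℕ, CycloAt p σ c → σ • t = c • t)
    (hxt : ∀ σ ∈ A.inertiaSubgroupIn ℚ, ∃ n : ℕ, σ • x = x + n • t)
    (hpeu : ∀ σ : GQ, PeuFixes A p σ → σ • x = x) (hpt : p • t = 0)
    {σ₀ : GQ} (hσ₀ : σ₀ ∈ A.inertiaSubgroupIn ℚ) (hσ₀1 : CycloAt p σ₀ 1) (hσ₀x : σ₀ • x ≠ x)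
    {ζ : Qb} (hζ : IsPrimitiveRoot ζ p) :
    ∃ (σ₁ : GQ) (u : Qb), σ₁ ∈ A.inertiaSubgroupIn ℚ ∧ CycloAt p σ₁ 1 ∧ σ₁ • x = x + t ∧
      σ₁ u = ζ * u ∧ u ∈ A ∧ u⁻¹ ∈ A ∧ u ≠ 0 ∧
      (∀ τ ∈ A.inertiaSubgroupIn ℚ, CycloAt p τ 1 → τ (u ^ p) = u ^ p) ∧
      (∀ σ ∈ A.inertiaSubgroupIn ℚ, CycloAt p σ 1 →
        ∀ n : ℕ, σ • x = x + n • t → σ u = ζ ^ n * u) ∧
      (∀ σ ∈ A.inertiaSubgroupIn ℚ, CycloAt p σ 1 → (σ • x = x ↔ σ u = u)) ∧
      (∀ σ : GQ, PeuFixes A p σ → σ u = u) := by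
  have ht0 : t ≠ 0 := by
    rintro rfl
    obtain ⟨n, hn⟩ := hxt σ₀ hσ₀
    rw [nsmul_zero, add_zero] at hn
    exact hσ₀x hn
  obtain ⟨σ₁, hσ₁, hσ₁x⟩ := exists_smul_eq_add hp x t ht hxt hpt
    (σ₀ := σ₀) ⟨hσ₀, hσ₀1⟩ hσ₀x
  obtain ⟨u, h1, h2, h3, h4, h5, h6, h7⟩ :=
    exists_kummer_gen hp x t hopen ht hxt hpeu hpt ht0 hζ
  refine ⟨σ₁, u, hσ₁.1, hσ₁.2, hσ₁x, ?_, h1, h2, h3, h4, h5, h6, h7⟩
  have h := h5 σ₁ hσ₁.1 hσ₁.2 1 (by rw [one_nsmul]; exact hσ₁x)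
  rwa [pow_one] at h

end Action

end Fermat.Agent.Ribet.H785
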