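import Fermat.Agent.A2.IF.H429.Inertia
import Fermat.Agent.A2.IF.H9.InertiaClosed

/-!
# RIBET row 38, WALL-p: the bridging lemma PEU (helper785)

How to USE the hypothesis "`x` is fixed by the peu ramifiée subgroup" of the crux (S4) of
`Ribet/H944/WallSpec.lean` (`Wall.PeuFixes`), and how to PRODUCE it (ELOC-ord).  Everything is
field theory in `ℚ̄`; no curves.  Vocabulary of `WallSpec`: see `PeuWall.lean` (adapter).

`A` a valuation subring of `ℚ̄` over `p`, `v = A.valuation`, `I = A.inertiaSubgroupIn ℚ`,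
`I₁ = {τ ∈ I : τ ζ = ζ for ζ ^ p = 1}`, `K₁ = ℚ̄^{I₁} = ℚ̄^I(ζ_p)`.

## Part 1 (Mathlib only): eigen-descent
`L` a field, `G` a set of ring endomorphisms, `F = L^G`.  `x` is `G`-eigen if `g x = u * x`, `u ∈ F`.
* `eigen_descent` : a nonzero `G`-eigen element which is an `F`-combination of `G`-eigen elements
  `y ∈ M` is `b * y` for ONE `y ∈ M`, `b ∈ F`.   (Kummer theory without Galois groups.)

## Part 2: Kummer theory over `K₁`
* `InK1 A p x`        : `x ∈ K₁` (unfolded form of the condition inside `Wall.PeuFixes`);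
* `IsPeuFixing A p σ` : unfolded `Wall.PeuFixes A p σ`;
* `peu_kummer` (**PEU-KUM**) : `c ^ p ∈ K₁` and `c` fixed by the peu ramifiée subgroup  ⟹
  `c = z * y`, `z ∈ K₁`, `y` a unit of `A` with `y ^ p ∈ K₁`.
  Proof: `c ∈ K₁(Y)`, `Y` = units of `A` with `p`-th power in `K₁` (infinite Galois correspondence
  + closedness of inertia, `A2/IF/H9`); `K₁(Y)` = `K₁`-span of `Y`; eigen-descent.

## Part 3: valuations
* `exists_val_pow_eq` : value group of `K₁`: `0 ≠ z ∈ K₁` ⟹ `v z ^ d = v p ^ k`, `0 < d < p`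
  (norm to the inertia field, which is unramified: `A2/IF/H429`);
* `exists_val_pow_eq_of_peuFixed` (**PEU-VAL, general**) : the same for `c` with `c ^ p ∈ K₁`,
  `c` fixed by the peu ramifiée subgroup;
* `dvd_of_pow_eq_unit_mul_zpow` (**PEU-VAL**) : `c ^ p = κ * p ^ m`, `κ ∈ K₁` a unit of `A`, `c`
  fixed by the peu ramifiée subgroup  ⟹  `p ∣ m`;
* `dvd_mul_of_pow_eq_unit_mul_zpow` : with `p` replaced by `ϖ`, `v ϖ ^ e = v p ^ f`: `p ∣ m * f`
  (e.g. `ϖ = 1 - ζ_p`, `e = p - 1`, `f = 1`).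
WARNING (why `κ ∈ K₁` is needed): for a unit `κ` of `A` outside `K₁` the statement is false
(`K₁(Y)` is wildly ramified over `K₁`: `v(K₁(Y)^×) ∌ v p / p` fails).
-/

set_option autoImplicit false
set_option linter.style.haveILetI false
set_option linter.unusedSectionVars false

namespace Fermat.Agent.Ribet.H785

section EigenDescent

variable {L : Type*} [Field L] {E : Type*} [FunLike E L L] [RingHomClass E L L]

/-- `x` is fixed by every element of `G`. -/
def FixedBy (G : Set E) (x : L) : Prop := ∀ g ∈ G, g x = x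

/-- `x` is an eigenvector of every element of `G`, with eigenvalue fixed by `G`. -/
def EigenBy (G : Set E) (x : L) : Prop := ∀ g ∈ G, ∃ u : L, FixedBy G u ∧ g x = u * x

variable {G : Set E}

theorem FixedBy.zero : FixedBy G (0 : L) := fun g _ => map_zero g

theorem FixedBy.one : FixedBy G (1 : L) := fun g _ => map_one g

theorem FixedBy.add {x y : L} (hx : FixedBy G x) (hy : FixedBy G y) : FixedBy G (x + y) :=
  fun g hg => by rw [map_add, hx g hg, hy g hg]

theorem FixedBy.sub {x y : L} (hx : FixedBy G x) (hy : FixedBy G y) : FixedBy G (x - y) :=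
  fun g hg => by rw [map_sub, hx g hg, hy g hg]

theorem FixedBy.mul {x y : L} (hx : FixedBy G x) (hy : FixedBy G y) : FixedBy G (x * y) :=
  fun g hg => by rw [map_mul, hx g hg, hy g hg]

theorem FixedBy.inv {x : L} (hx : FixedBy G x) : FixedBy G x⁻¹ :=
  fun g hg => by rw [map_inv₀, hx g hg]

theorem FixedBy.div {x y : L} (hx : FixedBy G x) (hy : FixedBy G y) : FixedBy G (x / y) :=
  fun g hg => by rw [map_div₀, hx g hg, hy g hg]

theorem FixedBy.eigenBy {x : L} (hx : FixedBy G x) : EigenBy G x :=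
  fun g hg => ⟨1, FixedBy.one, by rw [hx g hg, one_mul]⟩

theorem EigenBy.mul {x y : L} (hx : EigenBy G x) (hy : EigenBy G y) : EigenBy G (x * y) := by
  intro g hg
  obtain ⟨u, hu, hux⟩ := hx g hg
  obtain ⟨v, hv, hvy⟩ := hy g hg
  exact ⟨u * v, hu.mul hv, by rw [map_mul, hux, hvy]; ring⟩

/-- Elements whose `n`-th power is fixed are eigen, provided the `n`-th roots of unity are
fixed. -/
theorem eigenBy_of_pow_fixed {n : ℕ} (hμ : ∀ ζ : L, ζ ^ n = 1 → FixedBy G ζ) {x : L}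
    (hx : FixedBy G (x ^ n)) : EigenBy G x := by
  intro g hg
  by_cases hx0 : x = 0
  · exact ⟨1, FixedBy.one, by rw [hx0, map_zero, mul_zero]⟩
  · refine ⟨g x / x, hμ _ ?_, by field_simp⟩
    rw [div_pow, ← map_pow, hx g hg, div_self (pow_ne_zero _ hx0)]

/-- **Eigen-descent.**  A nonzero eigen element which is a combination, with fixed coefficients,
of eigen elements of `M` is a fixed multiple of one element of `M`. -/
theorem eigen_descent_aux (M : Set L) (hM : ∀ y ∈ M, EigenBy G y) (c : L) (hc0 : c ≠ 0)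
    (hc : EigenBy G c) (n : ℕ) :
    ∀ (s : Finset L) (a : L → L), s.card = n → (∀ y ∈ s, y ∈ M) →
      (∀ y ∈ s, FixedBy G (a y)) → c = ∑ y ∈ s, a y * y →
      ∃ y ∈ M, ∃ b : L, FixedBy G b ∧ c = b * y := by
  classical
  induction n using Nat.strong_induction_on with
  | _ n ih =>
    intro s a hcard hs ha hsum
    -- (0) drop the terms with a zero factor
    by_cases hz : ∃ y ∈ s, a y * y = 0
    · obtain ⟨y, hy, hy0⟩ := hz
      refine ih (s.erase y).card ?_ (s.erase y) a rfl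
        (fun z hz => hs z (Finset.mem_of_mem_erase hz))
        (fun z hz => ha z (Finset.mem_of_mem_erase hz)) ?_
      · rw [← hcard]
        exact Finset.card_erase_lt_of_mem hy
      · rw [hsum, ← Finset.add_sum_erase s _ hy, hy0, zero_add]
    push Not at hz
    -- (1), (2): at most one term
    rcases Nat.lt_or_ge s.card 2 with h2 | h2
    · rcases Nat.eq_zero_or_pos s.card with h0 | h1
      · rw [Finset.card_eq_zero] at h0
        rw [h0, Finset.sum_empty] at hsum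
        exact absurd hsum hc0
      · have h1' : s.card = 1 := by omega
        obtain ⟨y, rfl⟩ := Finset.card_eq_one.mp h1'
        rw [Finset.sum_singleton] at hsum
        exact ⟨y, hs y (Finset.mem_singleton_self y), a y,
          ha y (Finset.mem_singleton_self y), hsum⟩
    -- (3) two different terms
    obtain ⟨y₁, hy₁, y₂, hy₂, hne⟩ := Finset.one_lt_card.mp (by omega : 1 < s.card)
    have hy₁0 : y₁ ≠ 0 := fun h => hz y₁ hy₁ (by rw [h, mul_zero])
    have hy₂0 : y₂ ≠ 0 := fun h => hz y₂ hy₂ (by rw [h, mul_zero])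
    by_cases hA : ∀ g ∈ G, g y₁ * y₂ = g y₂ * y₁
    · -- Case A: same character: merge `y₂` into `y₁`
      have hr : FixedBy G (y₂ / y₁) := by
        intro g hg
        have hg1 : g y₁ ≠ 0 := by
          intro h
          exact hy₁0 ((map_eq_zero_iff g (RingHom.injective (g : L →+* L))).mp h)
        rw [map_div₀, div_eq_div_iff hg1 hy₁0, mul_comm y₂]
        exact (hA g hg).symm
      have hy₁' : y₁ ∈ s.erase y₂ := Finset.mem_erase.mpr ⟨hne, hy₁⟩
      refine ih (s.erase y₂).card ?_ (s.erase y₂)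
        (Function.update a y₁ (a y₁ + a y₂ * (y₂ / y₁))) rfl
        (fun z hz => hs z (Finset.mem_of_mem_erase hz)) ?_ ?_
      · rw [← hcard]
        exact Finset.card_erase_lt_of_mem hy₂
      · intro z hz
        by_cases hzy : z = y₁
        · subst hzy
          rw [Function.update_self]
          exact (ha z hy₁).add ((ha y₂ hy₂).mul hr)
        · rw [Function.update_of_ne hzy]
          exact ha z (Finset.mem_of_mem_erase hz)
      · rw [hsum, ← Finset.add_sum_erase s _ hy₂, ← Finset.add_sum_erase (s.erase y₂) _ hy₁',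
          ← Finset.add_sum_erase (s.erase y₂) _ hy₁', Function.update_self]
        have hrest : ∑ x ∈ (s.erase y₂).erase y₁,
            Function.update a y₁ (a y₁ + a y₂ * (y₂ / y₁)) x * x
            = ∑ x ∈ (s.erase y₂).erase y₁, a x * x := by
          refine Finset.sum_congr rfl fun x hx => ?_
          rw [Function.update_of_ne (Finset.ne_of_mem_erase hx)]
        rw [hrest]
        field_simp
        ring
    · -- Case B: an element `g` separating the two characters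
      push Not at hA
      obtain ⟨g, hg, hgne⟩ := hA
      have hex : ∀ y ∈ s, ∃ u : L, FixedBy G u ∧ g y = u * y := fun y hy => hM y (hs y hy) g hg
      choose! u hu using hex
      obtain ⟨uc, huc, hgc⟩ := hc g hg
      have hu12 : u y₁ ≠ u y₂ := by
        intro h
        apply hgne
        rw [(hu y₁ hy₁).2, (hu y₂ hy₂).2, h]
        ring
      -- `g c` computed termwise
      have hgsum : uc * c = ∑ y ∈ s, a y * (u y * y) := by
        rw [← hgc, hsum, map_sum]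
        refine Finset.sum_congr rfl fun y hy => ?_
        rw [map_mul, ha y hy g hg, (hu y hy).2]
      -- the reduction step, for an index `y₀` with `uc ≠ u y₀`
      have key : ∀ y₀ ∈ s, uc ≠ u y₀ → ∃ y ∈ M, ∃ b : L, FixedBy G b ∧ c = b * y := by
        intro y₀ hy₀ hne0
        have hd : uc - u y₀ ≠ 0 := sub_ne_zero.mpr hne0
        refine ih (s.erase y₀).card ?_ (s.erase y₀)
          (fun y => a y * (u y - u y₀) / (uc - u y₀)) rfl
          (fun z hz => hs z (Finset.mem_of_mem_erase hz)) ?_ ?_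
        · rw [← hcard]
          exact Finset.card_erase_lt_of_mem hy₀
        · intro z hz
          have hzs := Finset.mem_of_mem_erase hz
          exact ((ha z hzs).mul ((hu z hzs).1.sub (hu y₀ hy₀).1)).div (huc.sub (hu y₀ hy₀).1)
        · have h1 : (uc - u y₀) * c = ∑ y ∈ s, a y * (u y - u y₀) * y := by
            rw [sub_mul, hgsum]
            conv_lhs => rw [hsum]
            rw [Finset.mul_sum, ← Finset.sum_sub_distrib]
            refine Finset.sum_congr rfl fun y _ => ?_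
            ring
          rw [← Finset.add_sum_erase s _ hy₀, sub_self, mul_zero, zero_mul, zero_add] at h1
          have h2 : c = (uc - u y₀)⁻¹ * ∑ y ∈ s.erase y₀, a y * (u y - u y₀) * y := by
            rw [← h1, ← mul_assoc, inv_mul_cancel₀ hd, one_mul]
          rw [h2, Finset.mul_sum]
          refine Finset.sum_congr rfl fun y _ => ?_
          field_simp
      by_cases h1 : uc = u y₁
      · exact key y₂ hy₂ (fun h => hu12 (h1.symm.trans h))
      · exact key y₁ hy₁ h1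

/-- **Eigen-descent**, final form. -/
theorem eigen_descent (M : Set L) (hM : ∀ y ∈ M, EigenBy G y) {c : L} (hc0 : c ≠ 0)
    (hc : EigenBy G c) (s : Finset L) (a : L → L) (hs : ∀ y ∈ s, y ∈ M)
    (ha : ∀ y ∈ s, FixedBy G (a y)) (hsum : c = ∑ y ∈ s, a y * y) :
    ∃ y ∈ M, ∃ b : L, FixedBy G b ∧ c = b * y :=
  eigen_descent_aux M hM c hc0 hc s.card s a rfl hs ha hsum

end EigenDescent

open Fermat.Agent.S55.Bridge Fermat.Agent.A2.IF

attribute [local instance] isAlgebraic_Qbar isGalois_Qbar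

local notation "Qb" => AlgebraicClosure ℚ


section Kummer

variable (A : ValuationSubring Qb) (p : ℕ)

/-- `x ∈ K₁ = ℚ̄^{I₁}`: `x` is fixed by every inertia element acting trivially on `μ_p`
(literally the condition of `Wall.PeuFixes`, with `Wall.CycloAt p τ 1` unfolded). -/
def InK1 (x : Qb) : Prop :=
  ∀ τ ∈ A.inertiaSubgroupIn ℚ, (∀ ζ : Qb, ζ ^ p = 1 → τ ζ = ζ ^ 1) → τ x = x

/-- `σ` lies in the peu ramifiée subgroup of inertia at `A` (unfolded `Wall.PeuFixes`). -/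
def IsPeuFixing (σ : Qb ≃ₐ[ℚ] Qb) : Prop :=
  σ ∈ A.inertiaSubgroupIn ℚ ∧
    ∀ y : Qb, y ∈ A → y⁻¹ ∈ A → InK1 A p (y ^ p) → σ y = y

/-- `I₁`: the inertia elements at `A` acting trivially on the `p`-th roots of unity. -/
def inertiaOne : Subgroup (Qb ≃ₐ[ℚ] Qb) where
  carrier := {τ | τ ∈ A.inertiaSubgroupIn ℚ ∧ ∀ ζ : Qb, ζ ^ p = 1 → τ ζ = ζ ^ 1}
  mul_mem' := by
    rintro σ τ ⟨hσ, hσ'⟩ ⟨hτ, hτ'⟩
    refine ⟨mul_mem hσ hτ, fun ζ hζ => ?_⟩
    rw [AlgEquiv.mul_apply, hτ' ζ hζ, pow_one, hσ' ζ hζ, pow_one]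
  one_mem' := ⟨one_mem _, fun ζ _ => by rw [pow_one]; rfl⟩
  inv_mem' := by
    rintro σ ⟨hσ, hσ'⟩
    refine ⟨inv_mem hσ, fun ζ hζ => ?_⟩
    have h := hσ' ζ hζ
    rw [pow_one] at h ⊢
    exact (AlgEquiv.symm_apply_eq σ).mpr h.symm

theorem mem_inertiaOne_iff {τ : Qb ≃ₐ[ℚ] Qb} :
    τ ∈ inertiaOne A p ↔
      τ ∈ A.inertiaSubgroupIn ℚ ∧ ∀ ζ : Qb, ζ ^ p = 1 → τ ζ = ζ ^ 1 := Iff.rfl

theorem inK1_iff_fixedBy {x : Qb} :
    InK1 A p x ↔ FixedBy (inertiaOne A p : Set (Qb ≃ₐ[ℚ] Qb)) x :=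
  ⟨fun h τ hτ => h τ hτ.1 hτ.2, fun h τ hτ hτ' => h τ ⟨hτ, hτ'⟩⟩

/-- `K₁`. -/
noncomputable def fieldOne : IntermediateField ℚ Qb :=
  IntermediateField.fixedField (inertiaOne A p)

theorem mem_fieldOne_iff {x : Qb} : x ∈ fieldOne A p ↔ InK1 A p x := by
  unfold fieldOne
  rw [IntermediateField.mem_fixedField_iff]
  exact ⟨fun h τ hτ hτ' => h τ ⟨hτ, hτ'⟩, fun h τ hτ => h τ hτ.1 hτ.2⟩

variable {A p}

theorem InK1.zero : InK1 A p 0 := fun τ _ _ => map_zero τ

theorem InK1.one : InK1 A p 1 := fun τ _ _ => map_one τ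

theorem InK1.mul {x y : Qb} (hx : InK1 A p x) (hy : InK1 A p y) : InK1 A p (x * y) :=
  fun τ hτ hτ' => by rw [map_mul, hx τ hτ hτ', hy τ hτ hτ']

theorem InK1.inv {x : Qb} (hx : InK1 A p x) : InK1 A p x⁻¹ :=
  fun τ hτ hτ' => by rw [map_inv₀, hx τ hτ hτ']

theorem InK1.div {x y : Qb} (hx : InK1 A p x) (hy : InK1 A p y) : InK1 A p (x / y) :=
  fun τ hτ hτ' => by rw [map_div₀, hx τ hτ hτ', hy τ hτ hτ']

theorem InK1.pow {x : Qb} (hx : InK1 A p x) (n : ℕ) : InK1 A p (x ^ n) :=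
  fun τ hτ hτ' => by rw [map_pow, hx τ hτ hτ']

theorem InK1.zpow {x : Qb} (hx : InK1 A p x) (n : ℤ) : InK1 A p (x ^ n) :=
  fun τ hτ hτ' => by rw [map_zpow₀, hx τ hτ hτ']

theorem InK1.natCast (n : ℕ) : InK1 A p (n : Qb) := fun τ _ _ => map_natCast τ n

theorem InK1.of_rootOfUnity {ζ : Qb} (hζ : ζ ^ p = 1) : InK1 A p ζ :=
  fun τ _ hτ' => by rw [hτ' ζ hζ, pow_one]

/-- Elements fixed by the whole inertia group lie in `K₁`. -/
theorem InK1.of_inertia_fixed {x : Qb} (hx : ∀ τ ∈ A.inertiaSubgroupIn ℚ, τ x = x) :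
    InK1 A p x := fun τ hτ _ => hx τ hτ

/-- An element of the peu ramifiée subgroup fixes `K₁` pointwise. -/
theorem IsPeuFixing.apply_eq_of_inK1 (hp : p ≠ 0) {σ : Qb ≃ₐ[ℚ] Qb} (hσ : IsPeuFixing A p σ)
    {x : Qb} (hx : InK1 A p x) : σ x = x := by
  refine hx σ hσ.1 fun ζ hζ => ?_
  rw [pow_one]
  have h1 : A.valuation ζ ^ p = 1 := by rw [← map_pow, hζ, Valuation.map_one]
  have h2 : A.valuation ζ = 1 := (pow_eq_one_iff_of_nonneg zero_le hp).mp h1
  have hζA : ζ ∈ A := by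
    rw [← A.valuation_le_one_iff]
    exact le_of_eq h2
  have hζA' : ζ⁻¹ ∈ A := by
    rw [← A.valuation_le_one_iff, map_inv₀, h2, inv_one]
  exact hσ.2 ζ hζA hζA' (by rw [hζ]; exact InK1.one)

theorem valuation_eq_one_iff_mem {y : Qb} :
    A.valuation y = 1 ↔ y ∈ A ∧ y⁻¹ ∈ A ∧ y ≠ 0 := by
  constructor
  · intro h
    refine ⟨(A.valuation_le_one_iff y).mp (le_of_eq h), ?_, ?_⟩
    · rw [← A.valuation_le_one_iff, map_inv₀, h, inv_one]
    · rintro rfl
      rw [Valuation.map_zero] at h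
      exact zero_ne_one h
  · rintro ⟨h1, h2, h0⟩
    have hv0 : A.valuation y ≠ 0 := (Valuation.ne_zero_iff _).mpr h0
    have h1' : A.valuation y ≤ 1 := (A.valuation_le_one_iff y).mpr h1
    have h2' : (A.valuation y)⁻¹ ≤ 1 := by
      rw [← map_inv₀]
      exact (A.valuation_le_one_iff _).mpr h2
    exact le_antisymm h1' ((inv_le_one₀ (zero_lt_iff.mpr hv0)).mp h2')

section Galois

variable (A p)

/-- The units `y` of `A` with `y ^ p ∈ K₁`. -/
def peuUnits : Submonoid Qb where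
  carrier := {y | A.valuation y = 1 ∧ InK1 A p (y ^ p)}
  mul_mem' := by
    rintro x y ⟨hx, hx'⟩ ⟨hy, hy'⟩
    exact ⟨by rw [map_mul, hx, hy, one_mul], by rw [mul_pow]; exact hx'.mul hy'⟩
  one_mem' := ⟨map_one _, by rw [one_pow]; exact InK1.one⟩

theorem mem_peuUnits_iff {y : Qb} :
    y ∈ peuUnits A p ↔ A.valuation y = 1 ∧ InK1 A p (y ^ p) := Iff.rfl

/-- An element fixed by the peu ramifiée subgroup lies in `K₁(Y)`. -/
theorem mem_adjoin_of_peuFixed {c : Qb} (hpeu : ∀ σ, IsPeuFixing A p σ → σ c = c) :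
    c ∈ IntermediateField.adjoin (fieldOne A p) (peuUnits A p : Set Qb) := by
  rw [← InfiniteGalois.fixedField_fixingSubgroup
    (IntermediateField.adjoin (fieldOne A p) (peuUnits A p : Set Qb)),
    IntermediateField.mem_fixedField_iff]
  intro σ' hσ'
  have h : IsPeuFixing A p (σ'.restrictScalars ℚ) := by
    refine ⟨?_, ?_⟩
    · apply Fermat.Agent.A2.IF.H9.mem_inertiaSubgroupIn_of_fixes_fixedField
      intro x hx
      have hx1 : x ∈ fieldOne A p :=
        (mem_fieldOne_iff A p).mpr (InK1.of_inertia_fixed fun τ hτ =>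
          (IntermediateField.mem_fixedField_iff _ _).mp hx τ hτ)
      exact σ'.commutes ⟨x, hx1⟩
    · intro y hy hy' hyp
      by_cases hy0 : y = 0
      · rw [hy0]
        exact map_zero _
      · have hyY : y ∈ peuUnits A p := ⟨valuation_eq_one_iff_mem.mpr ⟨hy, hy', hy0⟩, hyp⟩
        exact (IntermediateField.mem_fixingSubgroup_iff _ σ').mp hσ' y
          (IntermediateField.subset_adjoin _ _ hyY)
  exact hpeu _ h

/-- **PEU-KUM.**  If `c ^ p ∈ K₁` and `c` is fixed by the peu ramifiée subgroup of inertia, then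
`c = z * y` with `z ∈ K₁` and `y` a unit of `A` with `y ^ p ∈ K₁`. -/
theorem peu_kummer {c : Qb} (hc : InK1 A p (c ^ p))
    (hpeu : ∀ σ, IsPeuFixing A p σ → σ c = c) :
    ∃ y z : Qb, A.valuation y = 1 ∧ InK1 A p (y ^ p) ∧ InK1 A p z ∧ c = z * y := by
  by_cases hc0 : c = 0
  · exact ⟨1, 0, map_one _, by rw [one_pow]; exact InK1.one, InK1.zero,
      by rw [hc0, zero_mul]⟩
  have h1 : c ∈ (IntermediateField.adjoin (fieldOne A p)
      (peuUnits A p : Set Qb)).toSubalgebra := mem_adjoin_of_peuFixed A p hpeu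
  rw [IntermediateField.adjoin_toSubalgebra] at h1
  have h2 : c ∈ Subalgebra.toSubmodule
      (Algebra.adjoin (fieldOne A p) (peuUnits A p : Set Qb)) := h1
  rw [Algebra.adjoin_eq_span, Submonoid.closure_eq] at h2
  obtain ⟨f, t, ht, -, hsum⟩ := Submodule.mem_span_iff_exists_finset_subset.mp h2
  have hμ : ∀ ζ : Qb, ζ ^ p = 1 → FixedBy (inertiaOne A p : Set (Qb ≃ₐ[ℚ] Qb)) ζ :=
    fun ζ hζ => (inK1_iff_fixedBy A p).mp (InK1.of_rootOfUnity hζ)
  obtain ⟨y, hy, b, hb, hcb⟩ :=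
    eigen_descent (G := (inertiaOne A p : Set (Qb ≃ₐ[ℚ] Qb))) (peuUnits A p : Set Qb)
      (fun y hy => eigenBy_of_pow_fixed hμ ((inK1_iff_fixedBy A p).mp hy.2)) hc0
      (eigenBy_of_pow_fixed hμ ((inK1_iff_fixedBy A p).mp hc)) t (fun y => ((f y : Qb)))
      (fun y hy => ht hy)
      (fun y _ => (inK1_iff_fixedBy A p).mp ((mem_fieldOne_iff A p).mp (f y).2))
      (by rw [← hsum]; rfl)
  exact ⟨y, b, hy.1, hy.2, (inK1_iff_fixedBy A p).mpr hb, hcb⟩

end Galois

end Kummer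


section Val

variable (A : ValuationSubring Qb) {p : ℕ}

theorem val_prime_lt_one (hA : A.LiesOverPrime p) : A.valuation (p : Qb) < 1 :=
  A.mem_nonunits_iff.mp hA

theorem val_prime_pos (hp : p.Prime) : 0 < A.valuation (p : Qb) := by
  rw [zero_lt_iff, Valuation.ne_zero_iff]
  exact_mod_cast hp.ne_zero

/-- `v p ^ a = v p ^ b → a = b`. -/
theorem zpow_val_prime_injective (hp : p.Prime) (hA : A.LiesOverPrime p) {a b : ℤ}
    (h : A.valuation (p : Qb) ^ a = A.valuation (p : Qb) ^ b) : a = b :=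
  zpow_right_injective₀ (val_prime_pos A hp) (ne_of_lt (val_prime_lt_one A hA)) h

/-- **The value group of `K₁`.**  For `0 ≠ z ∈ K₁` there are `0 < d < p` and `k` with
`v z ^ d = v p ^ k`. -/
theorem exists_val_pow_eq (hp : p.Prime) (hA : A.LiesOverPrime p) {z : Qb} (hz : InK1 A p z)
    (hz0 : z ≠ 0) :
    ∃ (d : ℕ) (k : ℤ), 0 < d ∧ d < p ∧ A.valuation z ^ d = A.valuation (p : Qb) ^ k := by
  classical
  -- the orbit of `z` under inertia
  have hfin : {w : Qb | ∃ τ ∈ A.inertiaSubgroupIn ℚ, τ z = w}.Finite := by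
    refine (Polynomial.rootSet_finite (minpoly ℚ z) Qb).subset ?_
    rintro w ⟨τ, -, rfl⟩
    rw [Polynomial.mem_rootSet]
    have hint : IsIntegral ℚ z := Algebra.IsIntegral.isIntegral z
    refine ⟨minpoly.ne_zero hint, ?_⟩
    have h1 := Polynomial.aeval_algHom_apply ((τ : Qb ≃ₐ[ℚ] Qb) : Qb →ₐ[ℚ] Qb) z (minpoly ℚ z)
    rw [minpoly.aeval, map_zero] at h1
    exact h1
  set O : Finset Qb := hfin.toFinset with hO
  have hmemO : ∀ w, w ∈ O ↔ ∃ τ ∈ A.inertiaSubgroupIn ℚ, τ z = w := fun w => by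
    rw [hO, Set.Finite.mem_toFinset]; rfl
  have hzO : z ∈ O := (hmemO z).mpr ⟨1, one_mem _, rfl⟩
  -- the norm
  have hNfix : ∀ σ ∈ A.inertiaSubgroupIn ℚ, σ (∏ w ∈ O, w) = ∏ w ∈ O, w := by
    intro σ hσ
    rw [map_prod]
    refine Finset.prod_bij (fun w _ => σ w) ?_ ?_ ?_ ?_
    · intro w hw
      obtain ⟨τ, hτ, rfl⟩ := (hmemO w).mp hw
      exact (hmemO _).mpr ⟨σ * τ, mul_mem hσ hτ, rfl⟩
    · intro w₁ _ w₂ _ h
      exact σ.injective h
    · intro w hw
      obtain ⟨τ, hτ, rfl⟩ := (hmemO w).mp hw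
      refine ⟨σ⁻¹ (τ z), (hmemO _).mpr ⟨σ⁻¹ * τ, mul_mem (inv_mem hσ) hτ, rfl⟩, ?_⟩
      show σ (σ⁻¹ (τ z)) = τ z
      rw [← AlgEquiv.mul_apply, mul_inv_cancel, AlgEquiv.one_apply]
    · intro w _
      rfl
  have hN0 : (∏ w ∈ O, w) ≠ 0 := by
    rw [Finset.prod_ne_zero_iff]
    intro w hw
    obtain ⟨τ, -, rfl⟩ := (hmemO w).mp hw
    exact (map_ne_zero_iff τ τ.injective).mpr hz0
  have hNmem : (∏ w ∈ O, w) ∈ H429.inertiaField A :=
    (H429.mem_inertiaField_iff A).mpr hNfix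
  obtain ⟨k, hk⟩ := H429.exists_zpow_of_mem_inertiaField A p hp hA _ hNmem hN0
  have hvp0 : A.valuation (p : Qb) ≠ 0 := (val_prime_pos A hp).ne'
  have hvN : A.valuation (∏ w ∈ O, w) = A.valuation (p : Qb) ^ k := by
    rw [map_div₀, map_zpow₀] at hk
    exact (div_eq_one_iff_eq (zpow_ne_zero _ hvp0)).mp hk
  have hvN' : A.valuation (∏ w ∈ O, w) = A.valuation z ^ O.card := by
    rw [map_prod, ← Finset.prod_const]
    refine Finset.prod_congr rfl fun w hw => ?_
    obtain ⟨τ, hτ, rfl⟩ := (hmemO w).mp hw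
    exact H429.valuation_map_eq A (H429.decomp_of_inertia A hτ) z
  refine ⟨O.card, k, Finset.card_pos.mpr ⟨z, hzO⟩, ?_, by rw [← hvN', hvN]⟩
  -- the orbit injects into the nontrivial `p`-th roots of unity
  haveI : NeZero p := ⟨hp.ne_zero⟩
  obtain ⟨ζ₀, hζ₀⟩ := HasEnoughRootsOfUnity.exists_primitiveRoot Qb p
  have hζ₀1 : ζ₀ ≠ 1 := hζ₀.ne_one hp.one_lt
  have hex : ∀ w ∈ O, ∃ τ ∈ A.inertiaSubgroupIn ℚ, τ z = w := fun w hw => (hmemO w).mp hw
  choose! t ht using hex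
  have hcard : O.card ≤ ((Polynomial.nthRootsFinset p (1 : Qb)).erase 1).card := by
    refine Finset.card_le_card_of_injOn (fun w => t w ζ₀) ?_ ?_
    · intro w hw
      rw [Finset.mem_coe, Finset.mem_erase, Polynomial.mem_nthRootsFinset hp.pos]
      refine ⟨fun h => hζ₀1 ?_, by rw [← map_pow, hζ₀.pow_eq_one, map_one]⟩
      exact (t w).injective (h.trans (map_one _).symm)
    · intro w₁ hw₁ w₂ hw₂ h
      have h' : t w₁ ζ₀ = t w₂ ζ₀ := h
      have hτ : (t w₂)⁻¹ * t w₁ ∈ A.inertiaSubgroupIn ℚ :=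
        mul_mem (inv_mem (ht w₂ hw₂).1) (ht w₁ hw₁).1
      have hτζ₀ : ((t w₂)⁻¹ * t w₁) ζ₀ = ζ₀ := by
        rw [AlgEquiv.mul_apply, h']
        show (t w₂)⁻¹ ((t w₂) ζ₀) = ζ₀
        rw [← AlgEquiv.mul_apply, inv_mul_cancel, AlgEquiv.one_apply]
      have hτμ : ∀ ζ : Qb, ζ ^ p = 1 → ((t w₂)⁻¹ * t w₁) ζ = ζ ^ 1 := by
        intro ζ hζ
        obtain ⟨i, -, rfl⟩ := hζ₀.eq_pow_of_pow_eq_one hζ
        rw [map_pow, hτζ₀, pow_one]
      have h3 := hz _ hτ hτμ
      rw [AlgEquiv.mul_apply, (ht w₁ hw₁).2] at h3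
      have h4 : (t w₂) ((t w₂)⁻¹ w₁) = (t w₂) z := congrArg (t w₂) h3
      rw [← AlgEquiv.mul_apply, mul_inv_cancel, AlgEquiv.one_apply, (ht w₂ hw₂).2] at h4
      exact h4
  have h1mem : (1 : Qb) ∈ Polynomial.nthRootsFinset p (1 : Qb) := by
    rw [Polynomial.mem_nthRootsFinset hp.pos]
    exact one_pow p
  rw [Finset.card_erase_of_mem h1mem, hζ₀.card_nthRootsFinset] at hcard
  have := hp.pos
  omega

variable {A}

/-- **PEU-VAL, general form.**  If `c ^ p ∈ K₁`, `c ≠ 0` and `c` is fixed by the peu ramifiée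
subgroup of inertia, then `v c ^ d = v p ^ k` for some `0 < d < p`, `k : ℤ`. -/
theorem exists_val_pow_eq_of_peuFixed (hp : p.Prime) (hA : A.LiesOverPrime p) {c : Qb}
    (hc0 : c ≠ 0) (hc : InK1 A p (c ^ p)) (hpeu : ∀ σ, IsPeuFixing A p σ → σ c = c) :
    ∃ (d : ℕ) (k : ℤ), 0 < d ∧ d < p ∧ A.valuation c ^ d = A.valuation (p : Qb) ^ k := by
  obtain ⟨y, z, hy, -, hz, hcz⟩ := peu_kummer A p hc hpeu
  have hz0 : z ≠ 0 := by
    rintro rfl
    rw [zero_mul] at hcz
    exact hc0 hcz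
  obtain ⟨d, k, hd, hdp, hdk⟩ := exists_val_pow_eq A hp hA hz hz0
  refine ⟨d, k, hd, hdp, ?_⟩
  rw [hcz, map_mul, hy, mul_one, hdk]

/-- **PEU-VAL, form with an auxiliary uniformiser.**  `ϖ` with `v ϖ ^ e = v p ^ f`;
`c ^ p = κ * ϖ ^ m` with `κ` a unit of `A`, `c ^ p ∈ K₁`, `c` fixed by the peu ramifiée subgroup.
Then `p ∣ m * f`. -/
theorem dvd_mul_of_pow_eq_unit_mul_zpow (hp : p.Prime) (hA : A.LiesOverPrime p) {c κ ϖ : Qb}
    {m f : ℤ} {e : ℕ} (hϖ : A.valuation ϖ ^ e = A.valuation (p : Qb) ^ f)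
    (hκ : A.valuation κ = 1) (hϖ0 : ϖ ≠ 0) (hcp : c ^ p = κ * ϖ ^ m) (hc : InK1 A p (c ^ p))
    (hpeu : ∀ σ, IsPeuFixing A p σ → σ c = c) : (p : ℤ) ∣ m * f := by
  have hκ0 : κ ≠ 0 := by
    rintro rfl
    rw [Valuation.map_zero] at hκ
    exact zero_ne_one hκ
  have hc0 : c ≠ 0 := by
    rintro rfl
    rw [zero_pow hp.ne_zero] at hcp
    exact (mul_ne_zero hκ0 (zpow_ne_zero _ hϖ0)) hcp.symm
  obtain ⟨d, k, hd, hdp, hdk⟩ := exists_val_pow_eq_of_peuFixed hp hA hc0 hc hpeu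
  -- `v c ^ p = v ϖ ^ m`
  have h1 : A.valuation c ^ p = A.valuation ϖ ^ m := by
    rw [← map_pow, hcp, map_mul, hκ, one_mul, map_zpow₀]
  -- compare `v c ^ (p * d * e)`
  have h2 : A.valuation (p : Qb) ^ (m * f * (d : ℤ)) = A.valuation (p : Qb) ^ (k * p * (e : ℤ)) := by
    have a1 : (A.valuation ϖ ^ m) ^ e = A.valuation (p : Qb) ^ (f * m) := by
      rw [← zpow_natCast (A.valuation ϖ ^ m) e, ← zpow_mul, mul_comm, zpow_mul, zpow_natCast, hϖ,
        ← zpow_mul]
    have e1 : ((A.valuation ϖ ^ m) ^ e) ^ d = A.valuation (p : Qb) ^ (m * f * (d : ℤ)) := by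
      rw [a1, ← zpow_natCast, ← zpow_mul]
      congr 1
      ring
    have e2 : ((A.valuation c ^ p) ^ e) ^ d = A.valuation (p : Qb) ^ (k * p * (e : ℤ)) := by
      have a2 : ((A.valuation c ^ p) ^ e) ^ d = (A.valuation c ^ d) ^ (p * e) := by
        rw [← pow_mul, ← pow_mul, ← pow_mul]
        congr 1
        ring
      rw [a2, hdk, ← zpow_natCast, ← zpow_mul]
      congr 1
      push_cast
      ring
    rw [← e1, ← e2, h1]
  have h3 : m * f * (d : ℤ) = k * p * (e : ℤ) := zpow_val_prime_injective A hp hA h2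
  have h4 : (p : ℤ) ∣ m * f * (d : ℤ) := ⟨k * e, by rw [h3]; ring⟩
  rcases Int.Prime.dvd_mul' hp h4 with h5 | h5
  · exact h5
  · exfalso
    have h6 : p ∣ d := by exact_mod_cast h5
    exact absurd (Nat.le_of_dvd hd h6) (not_le.mpr hdp)

/-- **PEU-VAL.**  `c ^ p = κ * p ^ m` with `κ ∈ K₁` a unit of `A`, and `c` fixed by the peu
ramifiée subgroup of inertia.  Then `p ∣ m`. -/
theorem dvd_of_pow_eq_unit_mul_zpow (hp : p.Prime) (hA : A.LiesOverPrime p) {c κ : Qb} {m : ℤ}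
    (hκ : A.valuation κ = 1) (hκ1 : InK1 A p κ) (hcp : c ^ p = κ * (p : Qb) ^ m)
    (hpeu : ∀ σ, IsPeuFixing A p σ → σ c = c) : (p : ℤ) ∣ m := by
  have hp0 : (p : Qb) ≠ 0 := by exact_mod_cast hp.ne_zero
  have hc : InK1 A p (c ^ p) := by
    rw [hcp]
    exact hκ1.mul ((InK1.natCast p).zpow m)
  have h := dvd_mul_of_pow_eq_unit_mul_zpow hp hA (e := 1) (f := 1) (ϖ := (p : Qb))
    (by rw [pow_one, zpow_one]) hκ hp0 hcp hc hpeu
  rwa [mul_one] at h

end Val

end Fermat.Agent.Ribet.H785
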