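import Fermat.Agent.Ribet.H944.WallSpec
import Fermat.Agent.Ribet.H785.PeuCore

/-!
# RIBET row 38, WALL-p, bridging lemma PEU (helper785) — part 4: `WallSpec` vocabulary

The results of `PeuCore.lean` stated with `Wall.PeuFixes` and `Wall.CycloAt`
of `Fermat/Agent/Ribet/H944/WallSpec.lean` (the hypothesis `∀ σ, PeuFixes A p σ → σ • x = x` of
the crux (S4) of `AtPFiltrationStatement`, and the third clause of `ELOCOrdAt`).

Consumers (S4, any route): from `hx : ∀ σ, PeuFixes A p σ → σ • x = x` and a "period" `c` which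
is rational over the field of definition of `x` over `K₁`
(`∀ σ ∈ I, CycloAt p σ 1 → σ • x = x → σ c = c`) with `c ^ p = κ * p ^ m`, `κ ∈ K₁` a unit of `A`:
`dvd_of_peuFixes_of_rational` gives `p ∣ m`.

Producers (ELOC-ord): to prove `∀ σ, PeuFixes A p σ → σ c = c` it is enough to write
`c = z * y`, `z ∈ K₁`, `y` a unit of `A` with `y ^ p ∈ K₁` (`peuFixes_apply_mul`), or to put `c`
in the field generated by such elements (`PeuFixes` elements are ring automorphisms).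
-/

set_option autoImplicit false
set_option linter.style.haveILetI false

namespace Fermat.Agent.Ribet.H785

open Fermat.Agent.Ribet.Spec Fermat.Agent.Ribet.H944.Wall

local notation "Qb" => AlgebraicClosure ℚ

variable {A : ValuationSubring Qb} {p : ℕ}

/-- `IsPeuFixing` is `Wall.PeuFixes`, unfolded. -/
theorem isPeuFixing_iff_peuFixes (σ : GQ) : IsPeuFixing A p σ ↔ PeuFixes A p σ := Iff.rfl

/-- `InK1` is the `K₁`-membership condition of `Wall.PeuFixes`. -/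
theorem inK1_iff_cycloAt (x : Qb) :
    InK1 A p x ↔ ∀ τ ∈ A.inertiaSubgroupIn ℚ, CycloAt p τ 1 → τ x = x := Iff.rfl

/-- An element of the peu ramifiée subgroup acts trivially on `μ_p`. -/
theorem PeuFixes_cycloAt_one (hp : p ≠ 0) {σ : GQ} (hσ : PeuFixes A p σ) : CycloAt p σ 1 := by
  intro ζ hζ
  rw [pow_one]
  exact IsPeuFixing.apply_eq_of_inK1 hp hσ (InK1.of_rootOfUnity hζ)

/-- An element of the peu ramifiée subgroup fixes `K₁` pointwise. -/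
theorem PeuFixes_apply_eq (hp : p ≠ 0) {σ : GQ} (hσ : PeuFixes A p σ) {x : Qb}
    (hx : ∀ τ ∈ A.inertiaSubgroupIn ℚ, CycloAt p τ 1 → τ x = x) : σ x = x :=
  IsPeuFixing.apply_eq_of_inK1 hp hσ hx

/-- (for producers) products `z * y`, `z ∈ K₁`, `y` a unit of `A` with `y ^ p ∈ K₁`, are fixed by
the peu ramifiée subgroup. -/
theorem peuFixes_apply_mul (hp : p ≠ 0) {σ : GQ} (hσ : PeuFixes A p σ) {y z : Qb}
    (hy : y ∈ A) (hy' : y⁻¹ ∈ A)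
    (hyp : ∀ τ ∈ A.inertiaSubgroupIn ℚ, CycloAt p τ 1 → τ (y ^ p) = y ^ p)
    (hz : ∀ τ ∈ A.inertiaSubgroupIn ℚ, CycloAt p τ 1 → τ z = z) : σ (z * y) = z * y := by
  rw [map_mul, PeuFixes_apply_eq hp hσ hz, hσ.2 y hy hy' hyp]

/-- **PEU-KUM** in `WallSpec` vocabulary: a `p`-th root `c` of an element of `K₁` which is fixed
by the peu ramifiée subgroup is `z * y`, `z ∈ K₁`, `y` a unit of `A` with `y ^ p ∈ K₁`. -/
theorem exists_mul_of_peuFixes {c : Qb}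
    (hc : ∀ τ ∈ A.inertiaSubgroupIn ℚ, CycloAt p τ 1 → τ (c ^ p) = c ^ p)
    (hpeu : ∀ σ : GQ, PeuFixes A p σ → σ c = c) :
    ∃ y z : Qb, y ∈ A ∧ y⁻¹ ∈ A ∧ y ≠ 0 ∧
      (∀ τ ∈ A.inertiaSubgroupIn ℚ, CycloAt p τ 1 → τ (y ^ p) = y ^ p) ∧
      (∀ τ ∈ A.inertiaSubgroupIn ℚ, CycloAt p τ 1 → τ z = z) ∧ c = z * y := by
  obtain ⟨y, z, hy, hyp, hz, hcz⟩ := peu_kummer A p hc hpeu
  obtain ⟨h1, h2, h3⟩ := valuation_eq_one_iff_mem.mp hy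
  exact ⟨y, z, h1, h2, h3, hyp, hz, hcz⟩

/-- **PEU-VAL** in `WallSpec` vocabulary: `c ^ p = κ * p ^ m`, `κ ∈ K₁` a unit of `A`, `c` fixed
by the peu ramifiée subgroup of inertia at `A ∣ p`  ⟹  `p ∣ m`. -/
theorem dvd_of_peuFixes (hp : p.Prime) (hA : A.LiesOverPrime p) {c κ : Qb} {m : ℤ}
    (hκ : κ ∈ A) (hκ' : κ⁻¹ ∈ A) (hκ0 : κ ≠ 0)
    (hκ1 : ∀ τ ∈ A.inertiaSubgroupIn ℚ, CycloAt p τ 1 → τ κ = κ)
    (hcp : c ^ p = κ * (p : Qb) ^ m)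
    (hpeu : ∀ σ : GQ, PeuFixes A p σ → σ c = c) : (p : ℤ) ∣ m :=
  dvd_of_pow_eq_unit_mul_zpow hp hA (valuation_eq_one_iff_mem.mpr ⟨hκ, hκ', hκ0⟩) hκ1 hcp hpeu

/-- **PEU-VAL for a class `x`** (shape of the crux (S4)): `x` any object with a `G_ℚ`-action fixed
by the peu ramifiée subgroup; `c` rational over the field of definition of `x` over `K₁`;
`c ^ p = κ * p ^ m` with `κ ∈ K₁` a unit of `A`.  Then `p ∣ m`. -/
theorem dvd_of_peuFixes_of_rational {X : Type*} [MulAction GQ X] (hp : p.Prime)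
    (hA : A.LiesOverPrime p) (x : X) (hx : ∀ σ : GQ, PeuFixes A p σ → σ • x = x)
    {c κ : Qb} {m : ℤ}
    (hc : ∀ σ ∈ A.inertiaSubgroupIn ℚ, CycloAt p σ 1 → σ • x = x → σ c = c)
    (hκ : κ ∈ A) (hκ' : κ⁻¹ ∈ A) (hκ0 : κ ≠ 0)
    (hκ1 : ∀ τ ∈ A.inertiaSubgroupIn ℚ, CycloAt p τ 1 → τ κ = κ)
    (hcp : c ^ p = κ * (p : Qb) ^ m) : (p : ℤ) ∣ m :=
  dvd_of_peuFixes hp hA hκ hκ' hκ0 hκ1 hcp fun σ hσ =>
    hc σ hσ.1 (PeuFixes_cycloAt_one hp.ne_zero hσ) (hx σ hσ)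

/-- The same with an auxiliary uniformiser `ϖ`, `v ϖ ^ e = v p ^ f` (e.g. `ϖ = 1 - ζ_p`,
`e = p - 1`, `f = 1`): `c ^ p = κ * ϖ ^ m ∈ K₁`  ⟹  `p ∣ m * f`. -/
theorem dvd_mul_of_peuFixes_of_rational {X : Type*} [MulAction GQ X] (hp : p.Prime)
    (hA : A.LiesOverPrime p) (x : X) (hx : ∀ σ : GQ, PeuFixes A p σ → σ • x = x)
    {c κ ϖ : Qb} {m f : ℤ} {e : ℕ}
    (hϖ : A.valuation ϖ ^ e = A.valuation (p : Qb) ^ f) (hϖ0 : ϖ ≠ 0)
    (hc : ∀ σ ∈ A.inertiaSubgroupIn ℚ, CycloAt p σ 1 → σ • x = x → σ c = c)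
    (hκ : κ ∈ A) (hκ' : κ⁻¹ ∈ A) (hκ0 : κ ≠ 0)
    (hcK : ∀ τ ∈ A.inertiaSubgroupIn ℚ, CycloAt p τ 1 → τ (c ^ p) = c ^ p)
    (hcp : c ^ p = κ * ϖ ^ m) : (p : ℤ) ∣ m * f :=
  dvd_mul_of_pow_eq_unit_mul_zpow hp hA hϖ (valuation_eq_one_iff_mem.mpr ⟨hκ, hκ', hκ0⟩) hϖ0 hcp
    hcK fun σ hσ => hc σ hσ.1 (PeuFixes_cycloAt_one hp.ne_zero hσ) (hx σ hσ)

end Fermat.Agent.Ribet.H785
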